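import Mathlib
import Fermat.Agent.H01.P2.Full2
import Fermat.Agent.H28N.Sel3M
import Fermat.Agent.H09.M2G
import Fermat.Agent.Ell.Sel3G
import Fermat.Agent.ZK.SwitchFin
import Fermat.Agent.H18O.Lift4
import Fermat.Agent.H11N.Unr

/-!
# Level lowering for semistable curves at squarefree levels
-/

set_option autoImplicit false
set_option linter.style.haveILetI false

namespace Fermat.Agent.H24S

open Fermat.Agent.TW Fermat.Agent.CC Fermat.Agent.Ell Fermat.Agent.H12.LL Fermat.Agent.TFin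
open Fermat.Agent.H25 Fermat.Agent.H25.PT Fermat.Agent.H25.SB Fermat.Agent.H18O
open IsLocalRing CongruenceSubgroup WeierstrassCurve

/-- every semistable curve is modular of its exact conductor level -/
theorem full : P2.Full :=
  Fermat.Agent.P2.full_of_mz2 Fermat.Agent.H09.M2.mz2All_three Fermat.Agent.H09.M2.mz2All_five
    Fermat.Agent.H28N.sel3Mult Fermat.Agent.Ell.sel3Good Fermat.Agent.ZK.switch5Two

/-- Mazur's principle at `2` for all odd primes -/
theorem mz2All (p : ℕ) [hp : Fact p.Prime] (hp2 : p ≠ 2) : H18O.Mz2All p := by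
  by_cases hp3 : p = 3
  · subst hp3
    exact Fermat.Agent.H09.M2.mz2All_three
  · exact fun W hΔ _ hirr => Fermat.Agent.H09.M2.mz2_five hΔ hirr hp2 hp3

theorem squarefree_lcm_two {M : ℕ} (hsq : Squarefree M) : Squarefree (Nat.lcm 2 M) := by
  by_cases h2 : 2 ∣ M
  · rw [Nat.lcm_eq_right h2]; exact hsq
  · rw [Nat.Coprime.lcm_eq_mul ((Nat.Prime.coprime_iff_not_dvd Nat.prime_two).mpr h2)]
    exact (Nat.squarefree_mul_iff).mpr
      ⟨(Nat.Prime.coprime_iff_not_dvd Nat.prime_two).mpr h2, Nat.prime_two.prime.squarefree,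
        hsq⟩

variable {W : WeierstrassCurve ℤ} {p : ℕ} [hp : Fact p.Prime]

/-- in mode S the prime `p` divides all squarefree levels -/
theorem dvd_of_modeS (hΔ : W.Δ ≠ 0) (hirr : W.ModRepIsIrreducible p) (hp2 : p ≠ 2)
    (hS : ModeS W p) {M : ℕ} (hsq : Squarefree M) (hRM : W.IsResiduallyModularOfLevel p M) :
    p ∣ M := by
  have hne : Nat.lcm 2 M ≠ 0 := Nat.lcm_ne_zero two_ne_zero hsq.ne_zero
  have h1 := hS _ (squarefree_lcm_two hsq) (Nat.dvd_lcm_left _ _)
    (H18R.isResiduallyModular_mono hΔ hirr hRM (Nat.dvd_lcm_right _ _) hne)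
  refine ((Nat.Prime.dvd_mul hp.out).mp (h1.trans (Nat.lcm_dvd_mul _ _))).resolve_left ?_
  exact fun h4 => hp2 ((Nat.prime_dvd_prime_iff_eq hp.out Nat.prime_two).mp h4)

/-- **the minimal level** of a semistable curve at an odd prime -/
theorem exists_min (hΔ : W.Δ ≠ 0) (hss : W.IsSemistableModel) (hirr : W.ModRepIsIrreducible p)
    (hp2 : p ≠ 2) : ∃ N : ℕ, MinU W p N := by
  obtain ⟨M₀, hM0, hsq, hsupp, hmod⟩ := full W hΔ hss
  have hRM : W.IsResiduallyModularOfLevel p M₀ := by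
    obtain ⟨f, hf, hfW⟩ := hmod
    obtain ⟨𝔪, hmax, hmem⟩ := FLTPrelim.exists_maximalIdeal_natCast_prime_mem (p := p) hp.out
    refine ⟨f, 𝔪, hf, hmax, hmem, fun ℓ hℓ hgood hℓM _ => ?_⟩
    refine ⟨((W.apOfModel ℓ : ℤ) : integralClosure ℤ ℂ), ?_, ?_⟩
    · rw [hfW ℓ hℓ hgood hℓM]
      simp
    · rw [sub_self]
      exact zero_mem _
  have hpM : p ∣ M₀ → (p : ℤ) ∣ W.Δ := (hsupp p hp.out).mp
  exact exists_minU (step1In_of_geo hΔ hirr hp2 (geo_all hp.out)) hΔ hirr hp2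
    (mz2All p hp2 W hΔ hss hirr) (fun h3 => by
      subst h3
      exact auxAll_three W hΔ hss hirr)
    (llAll p hp2 W hΔ hss hirr _ fun hS => hpM (dvd_of_modeS hΔ hirr hp2 hS hsq hRM)) hsq hpM hRM

/-- **level lowering at squarefree levels** -/
theorem rm_div_of_unrAt (hΔ : W.Δ ≠ 0) (hss : W.IsSemistableModel)
    (hirr : W.ModRepIsIrreducible p) (hp2 : p ≠ 2) {M q : ℕ} (hq : q.Prime) (hqp : q ≠ p)
    (hqM : q ∣ M) (hM : Squarefree M) (hunr : UnrAt W p q)
    (hres : W.IsResiduallyModularOfLevel p M) : W.IsResiduallyModularOfLevel p (M / q) := by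
  obtain ⟨N, hN⟩ := exists_min hΔ hss hirr hp2
  have hM0 : M ≠ 0 := hM.ne_zero
  obtain ⟨c, rfl⟩ := hqM
  have hdiv : q * c / q = c := Nat.mul_div_cancel_left c hq.pos
  rw [hdiv]
  have hc0 : c ≠ 0 := right_ne_zero_of_mul hM0
  refine H18R.isResiduallyModular_mono hΔ hirr hN.rm ?_ hc0
  rw [← Nat.prod_primeFactors_of_squarefree hN.sq]
  refine Finset.prod_primes_dvd _ (fun ℓ hℓ => (Nat.prime_of_mem_primeFactors hℓ).prime)
    fun ℓ hℓ => ?_
  have hℓp := Nat.prime_of_mem_primeFactors hℓ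
  have hℓN := Nat.dvd_of_mem_primeFactors hℓ
  have key : ∀ {r : ℕ}, r.Prime → r ≠ q → r ∣ q * c → r ∣ c := fun hr hrq h =>
    ((Nat.Prime.dvd_mul hr).mp h).resolve_left fun h' =>
      hrq ((Nat.prime_dvd_prime_iff_eq hr hq).mp h')
  by_cases h : ℓ = p
  · subst h
    exact key hℓp (Ne.symm hqp) (dvd_of_modeS hΔ hirr hp2 (hN.mode.mp hℓN) hM hres)
  · have hram := hN.ram ℓ hℓp h hℓN
    refine key hℓp (fun h' => hram (h' ▸ hunr)) ?_
    by_contra hcon
    exact hram (H11N.unrAt_of_residual hΔ hirr hp2 hM0 hres hℓp hcon h)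

end Fermat.Agent.H24S
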